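/-
Fermat/Agent/MW/Bridge15/AJ.lean  (helper15) -- programme MW (S17), brick BR+ b:
**the Abel-Jacobi morphism of the S25 stack and its values on rational points.**

For a scheme `D'` representing THE cut `cut41 D` of the relative Picard functor of a two-chart
curve `cc : CurveCharts c ε` over an algebraically closed field `k`:

* `F1 D`   : the one-point family `x ↦ [O(oo - x)]` of the S25 stack, with its values on `k`-points;
* `F1n D`  : the inverse family `x ↦ [O(x - oo)]`;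
* `aj h : C ⟶ D'.P` : the Abel-Jacobi morphism `x ↦ [O(x - oo)]`, `aj_toBase`, `aj_base`;
* `toPic_aj` : the class in `PicQ (cc.chartA k)` of the point `aj(x)`, `x` a `k`-point of `C`.
-/
import Mathlib
import Fermat.Agent.AV.PicBridge84.Scheme
import Fermat.Agent.Jac.AbelJacobi81.Final

set_option autoImplicit false
set_option linter.unusedSectionVars false
set_option linter.style.haveILetI false

noncomputable section

universe u

open CategoryTheory CategoryTheory.Limits AlgebraicGeometry AlgebraicGeometry.RelPicard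
  NeronModelInfra GoodReductionJacobian TensorProduct

namespace Fermat.Agent.MW.Bridge15

open scoped Fermat.Agent.Jac.BaseChange75
open Fermat.Agent.Jac Fermat.Agent.Jac.PointsBridge79 Fermat.Agent.Jac.PointsBridge79Shell
  Fermat.Agent.Jac.AbelJacobi73 Fermat.Agent.Jac.BridgeK84 Fermat.Agent.Jac.BridgeK84Final
  Fermat.Agent.Jac.FinalWiring41 Fermat.Agent.Jac.LineOps39 Fermat.Agent.Jac.JGroup85Pic
  Fermat.Agent.Jac.JGroup85Api Fermat.Agent.AV.PicBridge84.SchemeSide

variable {k : Type u} [Field k] [IsAlgClosed k] {C : Scheme.{u}}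
  {c : C ⟶ Spec (CommRingCat.of k)} {ε : SchemeHomOver (𝟙 (Spec (CommRingCat.of k))) c}
  [IsIntegral C] {cc : CurveCharts c ε} (D : AffineDictionary cc)

attribute [local instance] CurveHyp80.isDedekindDomain_B0 CurveHyp80.isDedekindDomain_B1
  CurveHyp80.finiteType_B0 CurveHyp80.finiteType_B1

theorem dedK0 (cc : CurveCharts c ε) : IsDedekindDomain (k ⊗[k] cc.B0) :=
  isDedekindDomain_KB0 cc k Function.bijective_id

theorem dedK1 (cc : CurveCharts c ε) : IsDedekindDomain (k ⊗[k] cc.B1) :=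
  isDedekindDomain_KB1 cc k Function.bijective_id

theorem domK01 (cc : CurveCharts c ε) : IsDomain (k ⊗[k] cc.B01) :=
  isDomain_KB01 cc k Function.bijective_id

attribute [local instance] dedK0 dedK1 domK01

/-- **The one-point family of the S25 stack, with its values on `k`-points**:
`F1(x) = [O(oo - x)]`. -/
theorem exists_F1_betaPt :
    ∃ F1 : ClassFamily (cut41 D) c,
      ∀ x : SchemeHomOver (𝟙 (Spec (CommRingCat.of k))) c,
        betaPt D (hFP cc) (Q41 cc D)
            (clsAt F1 (CommRingCat.of k) x.1 (𝟙 (Spec (CommRingCat.of k))) x.2) =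
          (idealCls (cc.chartA k) (CurveHyp80.P0pairK cc k))⁻¹ *
            idealCls (cc.chartA k) (CurveHyp80.pointPairK cc k x) := by
  obtain ⟨F1, h0, h1⟩ := AbelJacobi81.exists_onePointFamily_eval D
    (ChartFPL36.chart0_finiteProjOverLine cc)
    (ClassesGlue86.Main.classesIsSheaf (fun A _ _ => D.gamma_top A))
    (BridgeK84Final.Q41 cc D)
    (AbelJacobi73.tautLine0 cc) (AbelJacobi73.isLine_curveLine0 cc _ _)
    (fun p => AbelJacobi73.chi_curveLine0 cc _ _ p)
    (AbelJacobi73.tautLine1 cc) (AbelJacobi73.isLine_curveLine1 cc _ _)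
    (fun p => AbelJacobi73.chi_curveLine1 cc _ _ p)
    (AbelJacobi73.curveLine0 cc cc.B01 (IsScalarTower.toAlgHom k cc.B0 cc.B01))
    (AbelJacobi73.curveLine1 cc cc.B01 (IsScalarTower.toAlgHom k cc.B1 cc.B01))
    (AbelJacobi73.liftData_tautLine0 cc cc.B01) (AbelJacobi73.liftData_tautLine1 cc cc.B01)
    ⟨by rw [AbelJacobi73.curveLine0_eq_curveLine1_overlap]; exact LineOps39.isoRefl _⟩
  refine ⟨F1, fun x => ?_⟩
  rcases CurveHyp80.mem_U0_or_mem_U1 cc x with hx | hx
  · letI := (CurveHyp80.evalAlg0 cc x hx).toRingHom.toAlgebra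
    have hl := liftData_pointLine0 cc.chart0 (hFP cc) cc.P0 (A := cc.B0) k (AlgHom.id k cc.B0)
    have hx' : (IsScalarTower.toAlgHom k cc.B0 k).comp (AlgHom.id k cc.B0) =
        CurveHyp80.evalAlg0 cc x hx := by
      ext b
      rfl
    unfold betaPt
    rw [h0 x hx (isLine_pointLine0 cc.chart0 (hFP cc) cc.P0 k _) hl, picEquiv_mk,
      picQ_pointLine0, hx', CurveHyp80.pointPairK_self_eq_graphPair0 cc x hx]
  · letI := (CurveHyp80.evalAlg1 cc x hx).toRingHom.toAlgebra
    have hl := liftData_pointLine1 cc.chart0 (hFP cc) cc.P0 (A := cc.B1) k (AlgHom.id k cc.B1)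
    have hx' : (IsScalarTower.toAlgHom k cc.B1 k).comp (AlgHom.id k cc.B1) =
        CurveHyp80.evalAlg1 cc x hx := by
      ext b
      rfl
    unfold betaPt
    rw [h1 x hx (isLine_pointLine1 cc.chart0 (hFP cc) cc.P0 k _) hl, picEquiv_mk,
      picQ_pointLine1, hx', CurveHyp80.pointPairK_self_eq_graphPair1 cc x hx]

/-- The one-point family `x ↦ [O(oo - x)]` of the S25 stack. -/
def F1 : ClassFamily (cut41 D) c := Classical.choose (exists_F1_betaPt D)

theorem betaPt_F1 (x : SchemeHomOver (𝟙 (Spec (CommRingCat.of k))) c) :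
    betaPt D (hFP cc) (Q41 cc D)
        (clsAt (F1 D) (CommRingCat.of k) x.1 (𝟙 (Spec (CommRingCat.of k))) x.2) =
      (idealCls (cc.chartA k) (CurveHyp80.P0pairK cc k))⁻¹ *
        idealCls (cc.chartA k) (CurveHyp80.pointPairK cc k x) :=
  Classical.choose_spec (exists_F1_betaPt D) x

/-! ### Inverse families -/

section Inv

variable {R : Type u} [CommRing R] {C' : Scheme.{u}} {c' : C' ⟶ Spec (CommRingCat.of R)}
  {ε' : SchemeHomOver (𝟙 (Spec (CommRingCat.of R))) c'} {P : SubPicCondition c' ε'}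
  (Γ : ClassGroupLaw P)

theorem mul_inv_cancel' {B : CommRingCat.{u}} (t : Spec B ⟶ Spec (CommRingCat.of R))
    (x : PClass P t) : Γ.mul t x (Γ.inv t x) = Γ.one t := by
  have h1 : Γ.mul t (Γ.inv t (Γ.inv t x)) (Γ.inv t x) = Γ.one t := Γ.inv_mul_cancel t _
  calc Γ.mul t x (Γ.inv t x)
      = Γ.mul t (Γ.one t) (Γ.mul t x (Γ.inv t x)) := (Γ.one_mul t _).symm
    _ = Γ.mul t (Γ.mul t (Γ.inv t (Γ.inv t x)) (Γ.inv t x)) (Γ.mul t x (Γ.inv t x)) := by rw [h1]
    _ = Γ.mul t (Γ.inv t (Γ.inv t x)) (Γ.mul t (Γ.mul t (Γ.inv t x) x) (Γ.inv t x)) := by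
        rw [Γ.mul_assoc, Γ.mul_assoc]
    _ = Γ.one t := by rw [Γ.inv_mul_cancel, Γ.one_mul, h1]

theorem eq_inv_of_mul_eq_one' {B : CommRingCat.{u}} (t : Spec B ⟶ Spec (CommRingCat.of R))
    {a b : PClass P t} (h : Γ.mul t a b = Γ.one t) : a = Γ.inv t b := by
  calc a = Γ.mul t a (Γ.one t) := (Γ.mul_one t a).symm
    _ = Γ.mul t a (Γ.mul t b (Γ.inv t b)) := by rw [mul_inv_cancel' Γ t b]
    _ = Γ.mul t (Γ.mul t a b) (Γ.inv t b) := (Γ.mul_assoc t _ _ _).symm
    _ = Γ.inv t b := by rw [h, Γ.one_mul]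

/-- Pullback of classes along a morphism of affine test schemes commutes with inverses. -/
theorem map_inv' {B B' : CommRingCat.{u}} (t : Spec B ⟶ Spec (CommRingCat.of R))
    (t' : Spec B' ⟶ Spec (CommRingCat.of R)) (φ : B ⟶ B') (hφ : Spec.map φ ≫ t = t')
    (x : PClass P t) :
    PClass.map P (⟨Spec.map φ, hφ⟩ : SchemeHomOver t' t) (Γ.inv t x) =
      Γ.inv t' (PClass.map P (⟨Spec.map φ, hφ⟩ : SchemeHomOver t' t) x) := by
  apply eq_inv_of_mul_eq_one' Γ t'
  rw [← Γ.map_mul t t' φ hφ, Γ.inv_mul_cancel, AbelJacobi73.map_one Γ t t' φ hφ]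

variable {X : Scheme.{u}} {p : X ⟶ Spec (CommRingCat.of R)}

/-- Pointwise inverse of a family. -/
def invFamily (F : ClassFamily P p) : ClassFamily P p where
  cls B ψ := Γ.inv (ψ ≫ p) (F.cls B ψ)
  natural B B' φ ψ := by
    rw [map_inv' Γ (ψ ≫ p) ((Spec.map φ ≫ ψ) ≫ p) φ (Category.assoc _ _ _).symm, F.natural]

theorem clsAt_invFamily (F : ClassFamily P p) (B : CommRingCat.{u}) (ψ : Spec B ⟶ X)
    (t : Spec B ⟶ Spec (CommRingCat.of R)) (ht : ψ ≫ p = t) :
    clsAt (invFamily Γ F) B ψ t ht = Γ.inv t (clsAt F B ψ t ht) := by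
  subst ht; rfl

end Inv

/-! ### The Abel-Jacobi morphism -/

section AJ

variable {D}
variable {D' : RelativePic0Designation k c} (h : RepresentsRelSubPic c ε (cut41 D) D')

/-- The class classified by `ψ ≫ familyMap h F`, with a prescribed structure morphism. -/
theorem pointClass_comp_familyMap' {X : Scheme.{u}} {p : X ⟶ Spec (CommRingCat.of k)}
    (F : ClassFamily (cut41 D) p) (B : CommRingCat.{u}) (ψ : Spec B ⟶ X)
    (t : Spec B ⟶ Spec (CommRingCat.of k)) (ht : ψ ≫ p = t) :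
    pointClass h t ⟨ψ ≫ familyMap h F, by rw [Category.assoc, familyMap_toBase, ht]⟩ =
      clsAt F B ψ t ht := by
  subst ht
  exact pointClass_comp_familyMap h F B ψ

theorem betaPt_one :
    betaPt D (hFP cc) (Q41 cc D) ((groupLaw41 D).one (𝟙 (Spec (CommRingCat.of k)))) = 1 := by
  have h1 := betaPt_mul D (hFP cc) (Q41 cc D) ((groupLaw41 D).one (𝟙 _)) ((groupLaw41 D).one (𝟙 _))
  have h2 : (JGroup85Law.classGroupLaw D _ (Q41 cc D)).mul (𝟙 (Spec (CommRingCat.of k)))
      ((groupLaw41 D).one (𝟙 _)) ((groupLaw41 D).one (𝟙 _)) = (groupLaw41 D).one (𝟙 _) :=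
    (groupLaw41 D).one_mul _ _
  rw [h2] at h1
  exact mul_eq_left.1 h1.symm

theorem betaPt_inv (ξ : PClass (cut41 D) (𝟙 (Spec (CommRingCat.of k)))) :
    betaPt D (hFP cc) (Q41 cc D) ((groupLaw41 D).inv (𝟙 _) ξ) =
      (betaPt D (hFP cc) (Q41 cc D) ξ)⁻¹ := by
  apply eq_inv_of_mul_eq_one_left
  have h1 := betaPt_mul D (hFP cc) (Q41 cc D) ((groupLaw41 D).inv (𝟙 _) ξ) ξ
  have h2 : (JGroup85Law.classGroupLaw D _ (Q41 cc D)).mul (𝟙 (Spec (CommRingCat.of k)))
      ((groupLaw41 D).inv (𝟙 _) ξ) ξ = (groupLaw41 D).one (𝟙 _) :=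
    (groupLaw41 D).inv_mul_cancel _ _
  rw [h2, betaPt_one] at h1
  exact h1.symm

variable (D) in
/-- The one-point family `x ↦ [O(x - oo)]`. -/
def F1n : ClassFamily (cut41 D) c := invFamily (groupLaw41 D) (F1 D)

/-- **The Abel-Jacobi morphism** `x ↦ [O(x - oo)]`. -/
def aj : C ⟶ D'.P := familyMap h (F1n D)

theorem aj_toBase : aj h ≫ D'.toBase = c := familyMap_toBase h (F1n D)

/-- The image of a `k`-point of the curve under the Abel-Jacobi morphism. -/
def ajPt (x : SchemeHomOver (𝟙 (Spec (CommRingCat.of k))) c) : Pt D' :=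
  ⟨x.1 ≫ aj h, by rw [Category.assoc, aj_toBase, x.2]⟩

theorem ajPt_coe (x : SchemeHomOver (𝟙 (Spec (CommRingCat.of k))) c) :
    (ajPt h x).1 = x.1 ≫ aj h := rfl

/-- **Values of the Abel-Jacobi morphism on `k`-points**: `aj(x) = [O(x - oo)]`. -/
theorem toPic_ajPt (x : SchemeHomOver (𝟙 (Spec (CommRingCat.of k))) c) :
    toPic h (ajPt h x) =
      (idealCls (cc.chartA k) (CurveHyp80.pointPairK cc k x))⁻¹ *
        idealCls (cc.chartA k) (CurveHyp80.P0pairK cc k) := by
  unfold toPic ajPt aj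
  rw [pointClass_comp_familyMap' h (F1n D) (CommRingCat.of k) x.1 (𝟙 _) x.2]
  unfold F1n
  rw [clsAt_invFamily, betaPt_inv, betaPt_F1, mul_inv, inv_inv, mul_comm]

/-- The Abel-Jacobi morphism sends the base point to the origin. -/
theorem ajPt_base : ajPt h ε = (law h).one (𝟙 _) := by
  apply toPic_injective h
  rw [toPic_ajPt, toPic_law_one, CurveHyp80.pointPairK_base cc k Function.bijective_id,
    inv_mul_cancel]

theorem base_comp_aj : ε.1 ≫ aj h = ((law h).one (𝟙 _)).1 :=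
  congrArg Subtype.val (ajPt_base h)

end AJ

end Fermat.Agent.MW.Bridge15
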