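/-
Fermat/Agent/MW/Bridge15/AJModel.lean  (helper15) -- programme MW (S17), brick BR+ b, part 2:
**Abel-Jacobi compatibility for the model curve of a function field.**

For `M : F1Model15.Model K F`, a scheme `D'` representing THE cut of the relative Picard functor
of `M.c`, helper84's bridge `β M h : Pic0 K F → J(K)` and the Abel-Jacobi morphism
`aj h : M.C ⟶ D'.P` of `Bridge15/AJ.lean`:

* `ajPt_eq_β` : `aj(σ) = β [P − oo]` for a `K`-point `σ` of `M.C` and places `P`, `oo` of `F / K`
  whose point pairs are those of `σ` and of the base point `M.ε`;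
* `exists_place_of_point`, `exists_place_base` : such places exist (and are unique);
* `sumPt_eq_β` : `aj(σ_1) + ⋯ + aj(σ_r) = β [P_1 + ⋯ + P_r − r·oo]`.
-/
import Mathlib
import Fermat.Agent.MW.Bridge15.AJ
import Fermat.Agent.AV.PicBridge84.Iso

set_option autoImplicit false
set_option linter.unusedSectionVars false
set_option linter.style.haveILetI false

noncomputable section

universe u

open CategoryTheory CategoryTheory.Limits AlgebraicGeometry AlgebraicGeometry.RelPicard
  NeronModelInfra GoodReductionJacobian TensorProduct AlgebraicCurve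

namespace Fermat.Agent.MW.Bridge15

open scoped Fermat.Agent.Jac.BaseChange75
open Fermat.Agent.Jac Fermat.Agent.Jac.AbelJacobi73 Fermat.Agent.Jac.BridgeK84
  Fermat.Agent.Jac.FinalWiring41 Fermat.Agent.Jac.LineOps39 Fermat.Agent.AV.F1Model15
  Fermat.Agent.AV.PicBridge84.Places Fermat.Agent.AV.PicBridge84.Chart
  Fermat.Agent.AV.PicBridge84.DivMap Fermat.Agent.AV.PicBridge84.SchemeSide
  Fermat.Agent.AV.PicBridge84.ModelGlue Fermat.Agent.AV.PicBridge84

variable {K F : Type u} [Field K] [Field F] [Algebra K F] [IsAlgClosed K] (M : Model K F)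

attribute [local instance] algF0 algF1 algF01

attribute [local instance] Iso.ded0 Iso.ded1 Iso.dom01 isFractionRing0 isFractionRing1 tower_K0
  tower_K1 tower_0_01 tower_1_01

/-- The degree-zero divisor `P − Q`. -/
def pointDiv [IsCurveOver K F] (P Q : Place K F) : Divisor.degZero (K := K) (F := F) :=
  ⟨Finsupp.single P 1 - Finsupp.single Q 1, by
    rw [Divisor.mem_degZero, map_sub, Divisor.degree_single, Divisor.degree_single,
      IsCurveOver.deg_eq_one_of_isAlgClosed P, IsCurveOver.deg_eq_one_of_isAlgClosed Q]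
    simp⟩

section Jacobian

variable [IsCurveOver K F] {D : AffineDictionary M.cc} {D' : RelativePic0Designation K M.c}
  (h : haveI := M.isIntegral; RepresentsRelSubPic M.c M.ε (cut41 D) D')

/-- **Abel-Jacobi compatibility on `K`-points**: `aj(σ) = β [P − oo]`. -/
theorem ajPt_eq_β (σ : SchemeHomOver (𝟙 (Spec (CommRingCat.of K))) M.c) (P Poo : Place K F)
    (hP : X (M.cc.chartA K) P = CurveHyp80.pointPairK M.cc K σ)
    (hoo : X (M.cc.chartA K) Poo = CurveHyp80.P0pairK M.cc K) :
    haveI := M.isIntegral
    ajPt h σ = Iso.β M h (Pic0.mk (pointDiv P Poo)) := by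
  haveI := M.isIntegral
  apply toPic_injective h
  rw [toPic_ajPt, Iso.toPic_β]
  unfold Iso.pic0MapM
  rw [Torsion.pic0Map_mk]
  show _ = Additive.toMul (divMap (M.cc.chartA K) (Finsupp.single P 1 - Finsupp.single Poo 1))
  rw [map_sub, divMap_single, divMap_single, zpow_one, zpow_one]
  unfold ptCls
  rw [hP, hoo]
  simp

/-- Every `K`-point of the model curve has a place. -/
theorem exists_place_of_point (σ : SchemeHomOver (𝟙 (Spec (CommRingCat.of K))) M.c) :
    ∃ P : Place K F, X (M.cc.chartA K) P = CurveHyp80.pointPairK M.cc K σ :=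
  exists_X_eq (Iso.curveHypM M) (isPointPair_of_isRatPointPair
    (CurveHyp80.isRatPointPair_pointPairK M.cc K Function.bijective_id σ))

/-- The place of the base point. -/
theorem exists_place_base : ∃ Poo : Place K F, X (M.cc.chartA K) Poo = CurveHyp80.P0pairK M.cc K :=
  exists_X_eq (Iso.curveHypM M) (isPointPair_of_isRatPointPair
    (CurveHyp80.isRatPointPair_P0K M.cc K))

/-- The point pair determines the place. -/
theorem X_injective_model :
    Function.Injective (X (K := K) (F := F) (M.cc.chartA K)) := by
  classical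
  intro v v' hvv
  rcases covering_model M v with h0 | h1
  · have h := count_X_I0 (M.cc.chartA K) (ctr v h0) v
    rw [if_pos (pl_ctr v h0), hvv, count_X_I0] at h
    by_contra hne
    rw [if_neg (fun e => hne ((pl_ctr v h0).symm.trans e))] at h
    exact zero_ne_one h
  · have h := count_X_I1 (M.cc.chartA K) (ctr v h1) v
    rw [if_pos (pl_ctr v h1), hvv, count_X_I1] at h
    by_contra hne
    rw [if_neg (fun e => hne ((pl_ctr v h1).symm.trans e))] at h
    exact zero_ne_one h

/-- The place of a `K`-point of the model curve. -/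
def placeOfPoint (σ : SchemeHomOver (𝟙 (Spec (CommRingCat.of K))) M.c) : Place K F :=
  Classical.choose (exists_place_of_point M σ)

theorem X_placeOfPoint (σ : SchemeHomOver (𝟙 (Spec (CommRingCat.of K))) M.c) :
    X (M.cc.chartA K) (placeOfPoint M σ) = CurveHyp80.pointPairK M.cc K σ :=
  Classical.choose_spec (exists_place_of_point M σ)

/-- The place of the base point. -/
def placeBase : Place K F := Classical.choose (exists_place_base M)

theorem X_placeBase : X (M.cc.chartA K) (placeBase M) = CurveHyp80.P0pairK M.cc K :=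
  Classical.choose_spec (exists_place_base M)

theorem placeOfPoint_base : placeOfPoint M M.ε = placeBase M := by
  apply X_injective_model M
  rw [X_placeOfPoint, X_placeBase, CurveHyp80.pointPairK_base M.cc K Function.bijective_id]

/-- Every place is the place of a `K`-point. -/
theorem placeOfPoint_surjective : Function.Surjective (placeOfPoint M) := by
  intro P
  obtain ⟨σ, hσ⟩ := CurveHyp80.exists_point_of_isRatPointPairK M.cc K Function.bijective_id
    (isRatPointPair_X (Iso.curveHypM M) (covering_model M) P)
  exact ⟨σ, X_injective_model M (by rw [X_placeOfPoint, hσ])⟩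

/-- The sum of the Abel-Jacobi images of a list of `K`-points. -/
def sumPt (l : List (SchemeHomOver (𝟙 (Spec (CommRingCat.of K))) M.c)) : Pt D' :=
  haveI := M.isIntegral
  l.foldr (fun σ acc => (law h).mul (𝟙 _) (ajPt h σ) acc) ((law h).one (𝟙 _))

theorem sumPt_nil : haveI := M.isIntegral; sumPt M h [] = (law h).one (𝟙 _) := rfl

theorem sumPt_cons (σ : SchemeHomOver (𝟙 (Spec (CommRingCat.of K))) M.c)
    (l : List (SchemeHomOver (𝟙 (Spec (CommRingCat.of K))) M.c)) :
    haveI := M.isIntegral
    sumPt M h (σ :: l) = (law h).mul (𝟙 _) (ajPt h σ) (sumPt M h l) := rfl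

/-- **Abel-Jacobi compatibility for sums**:
`aj(σ_1) + ⋯ + aj(σ_r) = β [P_1 + ⋯ + P_r − r·oo]`. -/
theorem sumPt_eq_β (Poo : Place K F)
    (hoo : X (M.cc.chartA K) Poo = CurveHyp80.P0pairK M.cc K)
    (l : List (SchemeHomOver (𝟙 (Spec (CommRingCat.of K))) M.c)) (Pl : List (Place K F))
    (hl : List.Forall₂ (fun σ P => X (M.cc.chartA K) P = CurveHyp80.pointPairK M.cc K σ) l Pl) :
    sumPt M h l = Iso.β M h ((Pl.map fun P => Pic0.mk (pointDiv P Poo)).sum) := by
  haveI := M.isIntegral
  induction hl with
  | nil =>
    rw [sumPt_nil, List.map_nil, List.sum_nil, Iso.β_zero]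
  | cons hP _ ih =>
    rw [sumPt_cons, ih, List.map_cons, List.sum_cons, Iso.β_add, ajPt_eq_β M h _ _ Poo hP hoo]

end Jacobian

end Fermat.Agent.MW.Bridge15
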