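/-
Fermat/Agent/MW/Bridge15/AJSum.lean  (helper15) -- programme MW (S17), brick BR+ b, part 3:
**the sum maps `σ_r : C^r ⟶ J` and their values on rational points.**

`sigma h r : (fibrePower c r).left ⟶ D'.P` is the morphism classified by the `r`-fold product
family of the one-point family `x ↦ [O(x - oo)]`; on `k`-points
`σ_r(z) = aj(z_1) + ⋯ + aj(z_r)` (`sigmaPt_succ`, `sigmaPt_eq_sumPts`).
-/
import Mathlib
import Fermat.Agent.MW.Bridge15.AJ

set_option autoImplicit false
set_option linter.unusedSectionVars false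
set_option linter.style.haveILetI false

noncomputable section

universe u

open CategoryTheory CategoryTheory.Limits AlgebraicGeometry AlgebraicGeometry.RelPicard
  NeronModelInfra GoodReductionJacobian TensorProduct

namespace Fermat.Agent.MW.Bridge15

open scoped Fermat.Agent.Jac.BaseChange75
open Fermat.Agent.Jac Fermat.Agent.Jac.PointsBridge79 Fermat.Agent.Jac.PointsBridge79Shell
  Fermat.Agent.Jac.AbelJacobi73 Fermat.Agent.Jac.BridgeK84 Fermat.Agent.Jac.BridgeK84Final
  Fermat.Agent.Jac.FinalWiring41 Fermat.Agent.Jac.LineOps39 Fermat.Agent.Jac.JGroup85Pic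
  Fermat.Agent.Jac.JGroup85Api Fermat.Agent.AV.PicBridge84.SchemeSide
  Fermat.Agent.Jac.QShell79Power

variable {k : Type u} [Field k] [IsAlgClosed k] {C : Scheme.{u}}
  {c : C ⟶ Spec (CommRingCat.of k)} {ε : SchemeHomOver (𝟙 (Spec (CommRingCat.of k))) c}
  [IsIntegral C] {cc : CurveCharts c ε} {D : AffineDictionary cc}
  {D' : RelativePic0Designation k c} (h : RepresentsRelSubPic c ε (cut41 D) D')

/-- **The sum map** `σ_r : C^r ⟶ J`, `(x_1, …, x_r) ↦ [O(x_1 + ⋯ + x_r - r·oo)]`. -/
def sigma (r : ℕ) : (fibrePower c r).left ⟶ D'.P :=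
  familyMap h (powerFamily (groupLaw41 D) (F1n D) r)

theorem sigma_toBase (r : ℕ) : sigma h r ≫ D'.toBase = (fibrePower c r).hom :=
  familyMap_toBase h _

/-- A `k`-point of the fibre power. -/
abbrev PowPt (c : C ⟶ Spec (CommRingCat.of k)) (r : ℕ) : Type u :=
  SchemeHomOver (𝟙 (Spec (CommRingCat.of k))) (fibrePower c r).hom

/-- The first component of a `k`-point of `C^(r+1)`. -/
def headPt {r : ℕ} (z : PowPt c (r + 1)) : SchemeHomOver (𝟙 (Spec (CommRingCat.of k))) c :=
  ⟨z.1 ≫ fibrePowerHead c r, by rw [Category.assoc, fibrePowerHead_comp, z.2]⟩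

/-- The remaining components of a `k`-point of `C^(r+1)`. -/
def tailPt {r : ℕ} (z : PowPt c (r + 1)) : PowPt c r :=
  ⟨z.1 ≫ fibrePowerTail c r, by rw [Category.assoc, fibrePowerTail_comp, z.2]⟩

/-- The image of a `k`-point of `C^r` under the sum map. -/
def sigmaPt (r : ℕ) (z : PowPt c r) : Pt D' :=
  ⟨z.1 ≫ sigma h r, by rw [Category.assoc, sigma_toBase, z.2]⟩

theorem sigmaPt_coe (r : ℕ) (z : PowPt c r) : (sigmaPt h r z).1 = z.1 ≫ sigma h r := rfl

theorem toPic_sigmaPt (r : ℕ) (z : PowPt c r) :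
    toPic h (sigmaPt h r z) = betaPt D (hFP cc) (Q41 cc D)
      (clsAt (powerFamily (groupLaw41 D) (F1n D) r) (CommRingCat.of k) z.1 (𝟙 _) z.2) := by
  unfold toPic sigmaPt sigma
  rw [pointClass_comp_familyMap' h _ (CommRingCat.of k) z.1 (𝟙 _) z.2]

theorem toPic_ajPt' (x : SchemeHomOver (𝟙 (Spec (CommRingCat.of k))) c) :
    toPic h (ajPt h x) = betaPt D (hFP cc) (Q41 cc D)
      (clsAt (F1n D) (CommRingCat.of k) x.1 (𝟙 _) x.2) := by
  unfold toPic ajPt aj
  rw [pointClass_comp_familyMap' h (F1n D) (CommRingCat.of k) x.1 (𝟙 _) x.2]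

theorem sigmaPt_zero (z : PowPt c 0) : sigmaPt h 0 z = (law h).one (𝟙 _) := by
  apply toPic_injective h
  rw [toPic_sigmaPt, toPic_law_one]
  show betaPt D (hFP cc) (Q41 cc D)
    (clsAt (ClassFamily.one (groupLaw41 D) (fibrePower c 0).hom) _ _ _ _) = 1
  rw [clsAt_one, betaPt_one]

/-- **The sum map on `k`-points**: `σ_(r+1)(z) = aj(z_1) + σ_r(z_2, …)`. -/
theorem sigmaPt_succ (r : ℕ) (z : PowPt c (r + 1)) :
    sigmaPt h (r + 1) z = (law h).mul (𝟙 _) (ajPt h (headPt z)) (sigmaPt h r (tailPt z)) := by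
  apply toPic_injective h
  rw [toPic_sigmaPt, toPic_law_mul, toPic_ajPt', toPic_sigmaPt]
  show betaPt D (hFP cc) (Q41 cc D) (clsAt (ClassFamily.mul (groupLaw41 D) _ _) _ _ _ _) = _
  rw [clsAt_mul, clsAt_comap, clsAt_comap]
  exact betaPt_mul D (hFP cc) (Q41 cc D) _ _

/-- The components of a `k`-point of `C^r`. -/
def comps : ∀ r : ℕ, PowPt c r → List (SchemeHomOver (𝟙 (Spec (CommRingCat.of k))) c)
  | 0, _ => []
  | r + 1, z => headPt z :: comps r (tailPt z)

theorem comps_length : ∀ (r : ℕ) (z : PowPt c r), (comps r z).length = r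
  | 0, _ => rfl
  | r + 1, z => by rw [comps, List.length_cons, comps_length r]

/-- The sum of the Abel-Jacobi images of a list of `k`-points of the curve. -/
def sumPts (l : List (SchemeHomOver (𝟙 (Spec (CommRingCat.of k))) c)) : Pt D' :=
  l.foldr (fun σ acc => (law h).mul (𝟙 _) (ajPt h σ) acc) ((law h).one (𝟙 _))

theorem sigmaPt_eq_sumPts : ∀ (r : ℕ) (z : PowPt c r), sigmaPt h r z = sumPts h (comps r z)
  | 0, z => sigmaPt_zero h z
  | r + 1, z => by
    rw [sigmaPt_succ, sigmaPt_eq_sumPts r (tailPt z)]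
    rfl

/-- The `k`-point of `C^r` with prescribed components. -/
def ofList : ∀ l : List (SchemeHomOver (𝟙 (Spec (CommRingCat.of k))) c), PowPt c l.length
  | [] => ⟨𝟙 _, Category.id_comp _⟩
  | x :: l =>
    ⟨pullback.lift x.1 (ofList l).1 (by rw [x.2, (ofList l).2]), by
      change pullback.lift x.1 (ofList l).1 _ ≫
        (pullback.fst c (fibrePower c l.length).hom ≫ c) = _
      rw [pullback.lift_fst_assoc, x.2]⟩

theorem comps_ofList : ∀ l : List (SchemeHomOver (𝟙 (Spec (CommRingCat.of k))) c),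
    comps l.length (ofList l) = l
  | [] => rfl
  | x :: l => by
    have h1 : headPt (ofList (x :: l)) = x := Subtype.ext (pullback.lift_fst _ _ _)
    have h2 : tailPt (ofList (x :: l)) = ofList l := Subtype.ext (pullback.lift_snd _ _ _)
    show headPt (ofList (x :: l)) :: comps l.length (tailPt (ofList (x :: l))) = x :: l
    rw [h1, h2, comps_ofList l]

end Fermat.Agent.MW.Bridge15
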