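/-
Fermat/Agent/MW/Bridge15/AJFinal.lean  (helper15) -- programme MW (S17), brick BR+ b, part 4:
**`σ_r(P_1, …, P_r) = β [P_1 + ⋯ + P_r − r·oo]`** for the model curve of a function field.
-/
import Mathlib
import Fermat.Agent.MW.Bridge15.AJModel
import Fermat.Agent.MW.Bridge15.AJSum

set_option autoImplicit false
set_option linter.unusedSectionVars false
set_option linter.style.haveILetI false

noncomputable section

universe u

open CategoryTheory CategoryTheory.Limits AlgebraicGeometry AlgebraicGeometry.RelPicard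
  NeronModelInfra GoodReductionJacobian TensorProduct AlgebraicCurve

namespace Fermat.Agent.MW.Bridge15

open scoped Fermat.Agent.Jac.BaseChange75
open Fermat.Agent.Jac Fermat.Agent.Jac.AbelJacobi73 Fermat.Agent.Jac.BridgeK84
  Fermat.Agent.Jac.FinalWiring41 Fermat.Agent.Jac.LineOps39 Fermat.Agent.AV.F1Model15
  Fermat.Agent.AV.PicBridge84.Places Fermat.Agent.AV.PicBridge84.Chart
  Fermat.Agent.AV.PicBridge84.DivMap Fermat.Agent.AV.PicBridge84.SchemeSide
  Fermat.Agent.AV.PicBridge84.ModelGlue Fermat.Agent.AV.PicBridge84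

variable {K F : Type u} [Field K] [Field F] [Algebra K F] [IsAlgClosed K] (M : Model K F)
  [IsCurveOver K F] {D : AffineDictionary M.cc} {D' : RelativePic0Designation K M.c}
  (h : haveI := M.isIntegral; RepresentsRelSubPic M.c M.ε (cut41 D) D')

attribute [local instance] algF0 algF1 algF01

attribute [local instance] Iso.ded0 Iso.ded1 Iso.dom01 isFractionRing0 isFractionRing1 tower_K0
  tower_K1 tower_0_01 tower_1_01

/-- The class `[P_1 + ⋯ + P_r − r·oo]` of a list of `K`-points of the model curve. -/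
def classOfPoints (l : List (SchemeHomOver (𝟙 (Spec (CommRingCat.of K))) M.c)) : Pic0 K F :=
  (l.map fun σ => Pic0.mk (pointDiv (placeOfPoint M σ) (placeBase M))).sum

/-- `aj(σ_1) + ⋯ + aj(σ_r) = β [P_1 + ⋯ + P_r − r·oo]`, `P_j` the place of `σ_j`. -/
theorem sumPts_eq_β (l : List (SchemeHomOver (𝟙 (Spec (CommRingCat.of K))) M.c)) :
    haveI := M.isIntegral
    sumPts h l = Iso.β M h (classOfPoints M l) := by
  haveI := M.isIntegral
  have h1 := sumPt_eq_β M h (placeBase M) (X_placeBase M) l (l.map (placeOfPoint M))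
    (by
      rw [List.forall₂_map_right_iff]
      exact List.forall₂_same.2 fun σ _ => X_placeOfPoint M σ)
  rw [List.map_map] at h1
  exact h1

/-- **Abel-Jacobi compatibility of the sum maps**:
`σ_r(z) = β [P_1 + ⋯ + P_r − r·oo]` for a `K`-point `z = (σ_1, …, σ_r)` of `C^r`. -/
theorem sigmaPt_eq_β (r : ℕ) (z : PowPt M.c r) :
    haveI := M.isIntegral
    sigmaPt h r z = Iso.β M h (classOfPoints M (comps r z)) := by
  haveI := M.isIntegral
  rw [sigmaPt_eq_sumPts, sumPts_eq_β]

end Fermat.Agent.MW.Bridge15
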