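/-
Fermat/Agent/MW/Bridge15/Strata.lean  (helper15) -- programme MW (S17), brick NC-B, glue between
`MW/Bridge15` (Abel-Jacobi for the model curve of a function field) and helper32's `MW/NorthB32`
(powers `pw X r` of a `CurveTo`, sum maps `sigma G X r`, their images `W G X r`).

* `ajCurveTo M h`        : the model curve with its Abel-Jacobi morphism, as a `Curv33.CurveTo`;
* `PwPt X r`, `compPt`   : `K`-points of `X^r` and their components;
* `comp_sigmaPt`         : generic `K`-point formula `σ_r(w) = φ(w_1) + ⋯ + φ(w_r)`;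
* `sigmaPtK_eq_β`        : `σ_r(w) = β [P_1 + ⋯ + P_r − r·oo]` in helper32's vocabulary;
* `X0 X U r`, `zfun0`     : the open `⨅ j, coord_j ⁻¹ U` of `X^r` and the functions `z_j = t ∘ coord_j`;
* `compl_U0`             : if `t` has a unique pole, the complement of the chart `U0` is the base
                           point;
* `Y`, `preimage_Y_le_X0`: `σ_r ⁻¹ (W_(r-1))ᶜ ≤ X0`.
-/
import Mathlib
import Fermat.Agent.MW.Bridge15.AJFinal
import Fermat.Agent.MW.NorthB32.Apply
import Fermat.Agent.MW.Bridge34.ModelPoints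

set_option autoImplicit false
set_option linter.unusedSectionVars false
set_option linter.style.haveILetI false

noncomputable section

universe u

open CategoryTheory CategoryTheory.Limits AlgebraicGeometry AlgebraicGeometry.RelPicard
  NeronModelInfra GoodReductionJacobian TensorProduct AlgebraicCurve

namespace Fermat.Agent.MW.Bridge15

open Fermat.Agent.AV.Curv33 Fermat.Agent.MW.NorthB32

/-! ### Generic part: `K`-points of powers of a `CurveTo` -/

section Generic

variable {K : Type u} [Field K] {A : Scheme.{u}} {f : A ⟶ Spec (CommRingCat.of K)}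
  {e : SchemeHomOver (𝟙 (Spec (CommRingCat.of K))) f}

/-- A `K`-point of the power `X^r`. -/
abbrev PwPt (X : CurveTo f e) (r : ℕ) : Type u :=
  SchemeHomOver (𝟙 (Spec (CommRingCat.of K))) (pwHom X r)

/-- The `j`-th component of a `K`-point of `X^r`. -/
def compPt {X : CurveTo f e} {r : ℕ} (w : PwPt X r) (j : Fin r) :
    SchemeHomOver (𝟙 (Spec (CommRingCat.of K))) X.c :=
  ⟨w.1 ≫ coord X r j, by rw [Category.assoc, coord_c, w.2]⟩

theorem compPt_coe {X : CurveTo f e} {r : ℕ} (w : PwPt X r) (j : Fin r) :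
    (compPt w j).1 = w.1 ≫ coord X r j := rfl

/-- The last `r` components of a `K`-point of `X^(r+1)`. -/
def tailPw {X : CurveTo f e} {r : ℕ} (w : PwPt X (r + 1)) : PwPt X r :=
  ⟨w.1 ≫ pwSnd X r, by rw [Category.assoc, pwSnd_hom, w.2]⟩

theorem compPt_succ {X : CurveTo f e} {r : ℕ} (w : PwPt X (r + 1)) (j : Fin r) :
    compPt w j.succ = compPt (tailPw w) j := by
  apply Subtype.ext
  show w.1 ≫ coord X (r + 1) j.succ = (w.1 ≫ pwSnd X r) ≫ coord X r j
  rw [coord_succ, Category.assoc]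

theorem compPt_zero_coe {X : CurveTo f e} {r : ℕ} (w : PwPt X (r + 1)) :
    (compPt w 0).1 = w.1 ≫ pwFst X r := rfl

variable (G : RelativeGroupLaw K f)

/-- The sum in `A(K)` of the images of a list of `K`-points of the curve. -/
def sumOfPts (X : CurveTo f (G.one (𝟙 (Spec (CommRingCat.of K)))))
    (l : List (SchemeHomOver (𝟙 (Spec (CommRingCat.of K))) X.c)) :
    SchemeHomOver (𝟙 (Spec (CommRingCat.of K))) f :=
  l.foldr (fun x acc => G.mul (𝟙 _) (schemeHomOverComp x.1 x.2 X.φ) acc) (G.one (𝟙 _))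

/-- **Generic `K`-point formula for the sum maps**: `σ_r(w) = φ(w_1) + ⋯ + φ(w_r)`. -/
theorem comp_sigmaPt (X : CurveTo f (G.one (𝟙 (Spec (CommRingCat.of K))))) :
    ∀ (r : ℕ) (w : PwPt X r),
      schemeHomOverComp w.1 w.2 (NorthB32.sigmaPt G X r) = sumOfPts G X (List.ofFn (compPt w))
  | 0, w => by
    rw [List.ofFn_zero]
    exact G.one_natural (𝟙 _) (𝟙 _) w.1 w.2
  | r + 1, w => by
    rw [NorthB32.sigmaPt_succ, G.mul_natural, List.ofFn_succ]
    show _ = G.mul (𝟙 _) (schemeHomOverComp (compPt w 0).1 (compPt w 0).2 X.φ)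
      (sumOfPts G X (List.ofFn fun j : Fin r => compPt w j.succ))
    have h1 : (fun j : Fin r => compPt w j.succ) = compPt (tailPw w) :=
      funext fun j => compPt_succ w j
    rw [h1, ← comp_sigmaPt X r (tailPw w)]
    congr 1

/-! ### The locus `X₀` and the coordinate functions `z_j` -/

/-- The open `⨅ j, coord_j ⁻¹ U` of `X^r` (all coordinates in `U`). -/
def X0 (X : CurveTo f e) (U : X.C.Opens) (r : ℕ) : (pw X r).Opens :=
  ⨅ j : Fin r, coord X r j ⁻¹ᵁ U

theorem mem_X0_iff (X : CurveTo f e) (U : X.C.Opens) (r : ℕ) (w : pw X r) :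
    w ∈ X0 X U r ↔ ∀ j : Fin r, coord X r j w ∈ U := by
  rw [← SetLike.mem_coe, X0, TopologicalSpace.Opens.coe_iInf, Set.mem_iInter]
  rfl

theorem X0_le (X : CurveTo f e) (U : X.C.Opens) (r : ℕ) (j : Fin r) :
    X0 X U r ≤ coord X r j ⁻¹ᵁ U := iInf_le _ j

theorem X0_zero (X : CurveTo f e) (U : X.C.Opens) : X0 X U 0 = ⊤ := iInf_of_empty _

/-- The function `z_j = t ∘ coord_j` on `X₀ ⊆ X^r`, for a function `t` on `U ⊆ X`. -/
def zfun0 (X : CurveTo f e) (U : X.C.Opens) (t : Γ(X.C, U)) (r : ℕ) (j : Fin r) :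
    Γ(pw X r, X0 X U r) :=
  ((coord X r j).appLE U (X0 X U r) (X0_le X U r j)).hom t

/-- The value of `z_j` at a `K`-point of `X^r` is the value of `t` at its `j`-th component. -/
theorem germVal_zfun0 (X : CurveTo f e) (U : X.C.Opens) (t : Γ(X.C, U)) (r : ℕ) (j : Fin r)
    (w : Spec (CommRingCat.of K) ⟶ pw X r)
    (hw : w (IsLocalRing.closedPoint K) ∈ X0 X U r) :
    Fermat.Agent.MW.NorthB10.germVal w (X0 X U r) hw (zfun0 X U t r j) =
      Fermat.Agent.MW.NorthB10.germVal (w ≫ coord X r j) U (X0_le X U r j hw) t := by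
  unfold zfun0
  rw [Scheme.Hom.appLE, CommRingCat.hom_comp, RingHom.comp_apply,
    Fermat.Agent.MW.NorthB10.germVal_res w (X0_le X U r j) hw,
    Fermat.Agent.MW.NorthB10.germVal_comp]

/-- A `K`-point of `X^r` lies in `X₀` iff all its components lie in `U`. -/
theorem pwPt_mem_X0_iff {X : CurveTo f e} (U : X.C.Opens) {r : ℕ} (w : PwPt X r) :
    w.1 (IsLocalRing.closedPoint K) ∈ X0 X U r ↔
      ∀ j : Fin r, (compPt w j).1 (IsLocalRing.closedPoint K) ∈ U := by
  rw [mem_X0_iff]
  rfl

end Generic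

/-! ### The model curve of a function field -/

section Model

open scoped Fermat.Agent.Jac.BaseChange75
open Fermat.Agent.Jac Fermat.Agent.Jac.AbelJacobi73 Fermat.Agent.Jac.BridgeK84
  Fermat.Agent.Jac.FinalWiring41 Fermat.Agent.Jac.LineOps39 Fermat.Agent.AV.F1Model15
  Fermat.Agent.AV.PicBridge84.Places Fermat.Agent.AV.PicBridge84.Chart
  Fermat.Agent.AV.PicBridge84.DivMap Fermat.Agent.AV.PicBridge84.SchemeSide
  Fermat.Agent.AV.PicBridge84.ModelGlue Fermat.Agent.AV.PicBridge84
  Fermat.Agent.MW.Bridge34 Fermat.Agent.Jac.CurveHyp80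

variable {K F : Type u} [Field K] [Field F] [Algebra K F] [IsAlgClosed K] (M : Model K F)

attribute [local instance] Model.isIntegral

/-! #### The complement of the chart `U0` -/

/-- A `K`-point maps the closed point into an open iff its preimage is everything. -/
theorem pt_mem_iff (x : KPoint M) (U : M.C.Opens) :
    x.1 (IsLocalRing.closedPoint K) ∈ U ↔ x.1 ⁻¹ᵁ U = ⊤ := by
  constructor
  · intro hx
    rcases preimage_eq_top_or_bot x U with h | h
    · exact h
    · exfalso
      have h1 : IsLocalRing.closedPoint K ∈ x.1 ⁻¹ᵁ U := hx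
      rw [h] at h1
      exact h1
  · intro h
    have h1 : IsLocalRing.closedPoint K ∈ x.1 ⁻¹ᵁ U := by rw [h]; trivial
    exact h1

/-- "The coordinate `t` has a unique pole". -/
def UniquePole : Prop :=
  ∀ v v' : Place K F, M.alg.t ∉ v.toValuationSubring → M.alg.t ∉ v'.toValuationSubring → v = v'

/-- If `t` has a unique pole, the only `K`-point outside the chart `U0` is the base point. -/
theorem eq_base_of_not_mem_U0 (hpole : UniquePole M) (x : KPoint M)
    (hx : ¬ x.1 ⁻¹ᵁ M.cc.U0 = ⊤) : x = M.ε := by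
  apply (pointPlaceEquiv M).injective
  apply hpole
  · rwa [← mem_U0_iff]
  · exact t_not_mem_base M

/-- **If `t` has a unique pole, the complement of the chart `U0 = Spec B0` is the base point.** -/
theorem compl_U0 (hpole : UniquePole M) :
    ((M.cc.U0 : Set M.C))ᶜ = {M.ε.1 (IsLocalRing.closedPoint K)} := by
  have hcl : IsClosed ({M.ε.1 (IsLocalRing.closedPoint K)} : Set M.C) := by
    have h1 : IsClosedImmersion (M.ε.1 ≫ M.c) := by rw [M.ε.2]; infer_instance
    have := M.isProper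
    have h2 : IsClosedImmersion M.ε.1 := IsClosedImmersion.of_comp M.ε.1 M.c
    have h3 : Set.range M.ε.1 = {M.ε.1 (IsLocalRing.closedPoint K)} := by
      ext t
      simp only [Set.mem_range, Set.mem_singleton_iff]
      constructor
      · rintro ⟨a, rfl⟩
        exact congrArg _ (Subsingleton.elim _ _)
      · rintro rfl
        exact ⟨_, rfl⟩
    rw [← h3]
    exact M.ε.1.isClosedEmbedding.isClosed_range
  ext y
  simp only [Set.mem_compl_iff, SetLike.mem_coe, Set.mem_singleton_iff]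
  constructor
  · intro hy
    by_contra hne
    have := M.isProper
    have hle : (⟨_, hcl.isOpen_compl⟩ : M.C.Opens) ≤ M.cc.U0 := by
      apply Fermat.Agent.MW.NorthB10.le_of_forall_pt_mem (f := M.c)
      intro x hx
      by_contra hx0
      have hxε : (⟨x.1, x.2⟩ : KPoint M) = M.ε :=
        eq_base_of_not_mem_U0 M hpole ⟨x.1, x.2⟩ (fun h0 => hx0 ((pt_mem_iff M ⟨x.1, x.2⟩ _).2 h0))
      apply hx
      show x.1 (IsLocalRing.closedPoint K) = M.ε.1 (IsLocalRing.closedPoint K)
      rw [← hxε]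
    exact hy (hle hne)
  · rintro rfl hmem
    exact t_not_mem_base M ((mem_U0_iff M M.ε).1 ((pt_mem_iff M M.ε _).1 hmem))

/-- `UniquePole` from the order form: `t` has a pole exactly at one place `oo`. -/
theorem uniquePole_of_ord (oo : Place K F) (h : ∀ v : Place K F, v.ord M.alg.t < 0 ↔ v = oo) :
    UniquePole M := by
  intro v v' hv hv'
  rw [Fermat.Agent.X0.FF.ffp_mem_iff_ord_nonneg, not_le] at hv hv'
  rw [(h v).1 hv, (h v').1 hv']

/-! #### The Abel-Jacobi curve and the strata -/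

variable {D : AffineDictionary M.cc} {D' : RelativePic0Designation K M.c}
  (h : RepresentsRelSubPic M.c M.ε (cut41 D) D')

/-- **The model curve with its Abel-Jacobi morphism**, as a `CurveTo` of the Jacobian. -/
abbrev ajCurveTo : CurveTo D'.toBase ((law h).one (𝟙 (Spec (CommRingCat.of K)))) where
  C := M.C
  c := M.c
  isProper := M.isProper
  smooth := M.smooth
  isIntegral := M.isIntegral
  ε := M.ε
  φ := ⟨aj h, aj_toBase h⟩
  φ_ε := base_comp_aj h

theorem basePt_ajCurveTo :
    basePt (ajCurveTo M h) = M.ε.1 (IsLocalRing.closedPoint K) := rfl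

/-- The image in `J(K)` of a `K`-point of `X^r` under the sum map `σ_r`. -/
def sigmaPtK (r : ℕ) (w : PwPt (ajCurveTo M h) r) : Pt D' :=
  schemeHomOverComp w.1 w.2 (NorthB32.sigmaPt (law h) (ajCurveTo M h) r)

theorem sigmaPtK_coe (r : ℕ) (w : PwPt (ajCurveTo M h) r) :
    (sigmaPtK M h r w).1 = w.1 ≫ NorthB32.sigma (law h) (ajCurveTo M h) r := rfl

theorem sumOfPts_ajCurveTo (l : List (SchemeHomOver (𝟙 (Spec (CommRingCat.of K))) M.c)) :
    sumOfPts (law h) (ajCurveTo M h) l = sumPts h l := rfl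

/-- The open stratum `Y_r = (W_(r-1))ᶜ` of the Jacobian (`Y_0 = ⊤`). -/
def Y [IsSeparated D'.toBase] : ℕ → D'.P.Opens
  | 0 => ⊤
  | r + 1 => ⟨(W (law h) (ajCurveTo M h) r)ᶜ,
      (isClosed_W (law h) (ajCurveTo M h) r).isOpen_compl⟩

theorem mem_Y_succ [IsSeparated D'.toBase] (r : ℕ) (y : D'.P) :
    y ∈ Y M h (r + 1) ↔ y ∉ W (law h) (ajCurveTo M h) r := Iff.rfl

/-- **T3**: `σ_r ⁻¹ Y_r ≤ X₀ = ⨅ j, coord_j ⁻¹ U0` when `t` has a unique pole. -/
theorem preimage_Y_le_X0 [IsSeparated D'.toBase] (hpole : UniquePole M) :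
    ∀ r : ℕ, NorthB32.sigma (law h) (ajCurveTo M h) r ⁻¹ᵁ Y M h r ≤ X0 (ajCurveTo M h) M.cc.U0 r
  | 0 => by rw [X0_zero]; exact le_top
  | r + 1 => by
    intro w hw
    rw [mem_X0_iff]
    intro j
    have h1 := preimage_compl_W_subset (law h) (ajCurveTo M h) r hw
    simp only [Set.mem_iInter, Set.mem_preimage, Set.mem_compl_iff, Set.mem_singleton_iff] at h1
    by_contra h0
    have h2 : coord (ajCurveTo M h) (r + 1) j w ∈ ((M.cc.U0 : Set M.C))ᶜ := h0
    rw [compl_U0 M hpole] at h2
    exact h1 j h2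

/-- Outside `Y_(r+1)` every point is in the image of `σ_r`. -/
theorem mem_range_sigma_of_not_mem_Y [IsSeparated D'.toBase] (r : ℕ) (v : D'.P)
    (hv : v ∉ Y M h (r + 1)) : v ∈ Set.range (NorthB32.sigma (law h) (ajCurveTo M h) r) :=
  not_not.mp hv

theorem Y_succ_eq_Wc [IsSeparated D'.toBase] (r : ℕ) :
    Y M h (r + 1) = Wc (law h) (ajCurveTo M h) r := rfl

/-- If `t` has a unique pole, helper32's open `Copen X = X ∖ {oo}` is the chart `U0`. -/
theorem Copen_ajCurveTo (hpole : UniquePole M) : Copen (ajCurveTo M h) = M.cc.U0 := by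
  apply TopologicalSpace.Opens.ext
  show ({basePt (ajCurveTo M h)}ᶜ : Set M.C) = (M.cc.U0 : Set M.C)
  rw [basePt_ajCurveTo, ← compl_U0 M hpole, compl_compl]

/-- The coordinate `t` as a function on the complement `Copen X` of the base point. -/
def tCopen (hpole : UniquePole M) : Γ(M.C, Copen (ajCurveTo M h)) :=
  (M.C.presheaf.map (homOfLE (Copen_ajCurveTo M h hpole).le).op).hom M.cc.t

theorem germVal_tCopen (hpole : UniquePole M) (v : Spec (CommRingCat.of K) ⟶ M.C)
    (hv : v (IsLocalRing.closedPoint K) ∈ Copen (ajCurveTo M h)) :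
    Fermat.Agent.MW.NorthB10.germVal v (Copen (ajCurveTo M h)) hv (tCopen M h hpole) =
      Fermat.Agent.MW.NorthB10.germVal v M.cc.U0 ((Copen_ajCurveTo M h hpole).le hv) M.cc.t :=
  Fermat.Agent.MW.NorthB10.germVal_res v (Copen_ajCurveTo M h hpole).le hv M.cc.t

variable [IsCurveOver K F]

/-- **`K`-point formula in helper32's vocabulary**:
`σ_r(w) = β [P_1 + ⋯ + P_r − r·oo]`, `P_j` the place of the `j`-th component of `w`. -/
theorem sigmaPtK_eq_β (r : ℕ) (w : PwPt (ajCurveTo M h) r) :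
    sigmaPtK M h r w = Iso.β M h (classOfPoints M (List.ofFn (compPt w))) := by
  unfold sigmaPtK
  rw [comp_sigmaPt, sumOfPts_ajCurveTo, sumPts_eq_β]

end Model

end Fermat.Agent.MW.Bridge15
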